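/-
S52 library, block KLEIN (helper3): the universal short Weierstrass curve with a point of order 5.

For parameters `p q` put
`c4h p q = p⁴ - 12p³q + 14p²q² + 12pq³ + q⁴`, `c6h p q = -(p⁶ - 18p⁵q + 75p⁴q² + 75p²q⁴ + 18pq⁵ + q⁶)`
(the homogenised `c₄`, `c₆` of Tate's normal form `y² + (1-b)xy - by = x³ - bx²`, `b = p/q`) and
`curvePQ p q : y² = x³ - 27·c4h·x - 54·c6h`.  The point `R = (3(p²+6pq+q²), 108p²q)` lies on it, its
double is `(3(p²-6pq+q²), 108pq²)`, and `4R = -R`; the tangent slopes at `R`, `2R` are `3(p+q)`, `3(p-q)`.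

* `five_nsmul_ptPQ` : `5 • R = 0` (when the discriminant is nonzero);
* `exists_pq_of_five_nsmul` (**normal form**): conversely every short Weierstrass curve `y² = x³+ax+b`
  over a field (`2, 3 ≠ 0`) with a point `(x, y)` killed by `5` is `curvePQ p q` with `(x, y) = R`.
-/
import Mathlib

set_option autoImplicit false

namespace Fermat.Agent.S52lib.Klein

open WeierstrassCurve WeierstrassCurve.Affine

section ring

variable {R : Type*} [CommRing R]

/-- homogenised `c₄` of Tate's normal form. -/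
def c4h (p q : R) : R := p ^ 4 - 12 * p ^ 3 * q + 14 * p ^ 2 * q ^ 2 + 12 * p * q ^ 3 + q ^ 4

/-- homogenised `c₆` of Tate's normal form. -/
def c6h (p q : R) : R :=
  -(p ^ 6 - 18 * p ^ 5 * q + 75 * p ^ 4 * q ^ 2 + 75 * p ^ 2 * q ^ 4 + 18 * p * q ^ 5 + q ^ 6)

/-- homogenised discriminant of Tate's normal form. -/
def dh (p q : R) : R := p ^ 5 * q ^ 5 * (p ^ 2 - 11 * p * q - q ^ 2)

theorem c4h_cube_sub_c6h_sq (p q : R) : c4h p q ^ 3 - c6h p q ^ 2 = 1728 * dh p q := by
  unfold c4h c6h dh; ring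

/-- `x`-coordinate of the universal point of order 5. -/
def xR (p q : R) : R := 3 * (p ^ 2 + 6 * p * q + q ^ 2)

/-- `y`-coordinate of the universal point of order 5. -/
def yR (p q : R) : R := 108 * p ^ 2 * q

/-- `x`-coordinate of its double. -/
def x2R (p q : R) : R := 3 * (p ^ 2 - 6 * p * q + q ^ 2)

/-- `y`-coordinate of its double. -/
def y2R (p q : R) : R := 108 * p * q ^ 2

/-- the universal curve `y² = x³ - 27 c4h x - 54 c6h`. -/
def curvePQ (p q : R) : WeierstrassCurve R := ⟨0, 0, 0, -27 * c4h p q, -54 * c6h p q⟩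

@[simp] theorem curvePQ_a₁ (p q : R) : (curvePQ p q).a₁ = 0 := rfl
@[simp] theorem curvePQ_a₂ (p q : R) : (curvePQ p q).a₂ = 0 := rfl
@[simp] theorem curvePQ_a₃ (p q : R) : (curvePQ p q).a₃ = 0 := rfl
@[simp] theorem curvePQ_a₄ (p q : R) : (curvePQ p q).a₄ = -27 * c4h p q := rfl
@[simp] theorem curvePQ_a₆ (p q : R) : (curvePQ p q).a₆ = -54 * c6h p q := rfl

theorem curvePQ_c₄ (p q : R) : (curvePQ p q).c₄ = 1296 * c4h p q := by
  simp only [WeierstrassCurve.c₄, WeierstrassCurve.b₂, WeierstrassCurve.b₄, curvePQ]; ring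

theorem curvePQ_c₆ (p q : R) : (curvePQ p q).c₆ = 46656 * c6h p q := by
  simp only [WeierstrassCurve.c₆, WeierstrassCurve.b₂, WeierstrassCurve.b₄, WeierstrassCurve.b₆,
    curvePQ]; ring

theorem curvePQ_Δ (p q : R) : (curvePQ p q).Δ = 2176782336 * dh p q := by
  simp only [WeierstrassCurve.Δ, WeierstrassCurve.b₂, WeierstrassCurve.b₄, WeierstrassCurve.b₆,
    WeierstrassCurve.b₈, curvePQ, c4h, c6h, dh]; ring

theorem map_c4h {S : Type*} [CommRing S] (f : R →+* S) (p q : R) :
    f (c4h p q) = c4h (f p) (f q) := by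
  simp only [c4h, map_add, map_sub, map_mul, map_pow, map_ofNat]

theorem map_c6h {S : Type*} [CommRing S] (f : R →+* S) (p q : R) :
    f (c6h p q) = c6h (f p) (f q) := by
  simp only [c6h, map_add, map_sub, map_mul, map_pow, map_ofNat, map_neg]

/-- the universal point lies on the universal curve. -/
theorem equation_ptPQ (p q : R) : (curvePQ p q).toAffine.Equation (xR p q) (yR p q) := by
  rw [Affine.equation_iff]
  simp only [curvePQ, xR, yR, c4h, c6h]
  ring

/-- so does its double. -/
theorem equation_pt2PQ (p q : R) : (curvePQ p q).toAffine.Equation (x2R p q) (y2R p q) := by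
  rw [Affine.equation_iff]
  simp only [curvePQ, x2R, y2R, c4h, c6h]
  ring

end ring

section field

variable {F : Type*} [Field F]

/-- **Doubling by certificate** on a short Weierstrass curve. -/
theorem add_self_eq_some [DecidableEq F] {W : Affine F} (h₁ : W.a₁ = 0) (h₂ : W.a₂ = 0)
    (h₃ : W.a₃ = 0) (h2 : (2 : F) ≠ 0) {x y x' y' l : F} (h : W.Nonsingular x y)
    (h' : W.Nonsingular x' y') (hy : y ≠ 0) (hl : 2 * y * l = 3 * x ^ 2 + W.a₄)
    (hx' : x' = l ^ 2 - 2 * x) (hy' : y' = -y - l * (x' - x)) :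
    Point.some x y h + Point.some x y h = Point.some x' y' h' := by
  have hneg : W.negY x y = -y := by simp [Affine.negY, h₁, h₃]
  have hyne : y ≠ W.negY x y := by
    rw [hneg]
    intro e
    have : 2 * y = 0 := by linear_combination e
    rcases mul_eq_zero.mp this with h0 | h0
    · exact h2 h0
    · exact hy h0
  rw [Point.add_self_of_Y_ne hyne]
  have hsl : W.slope x x y y = l := by
    rw [Affine.slope_of_Y_ne rfl hyne, hneg, h₁, h₂]
    have h2y : y - -y ≠ 0 := by
      intro e
      have : 2 * y = 0 := by linear_combination e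
      rcases mul_eq_zero.mp this with h0 | h0
      · exact h2 h0
      · exact hy h0
    rw [div_eq_iff h2y]
    linear_combination -hl
  have hX : W.addX x x (W.slope x x y y) = x' := by
    rw [hsl, Affine.addX, h₁, h₂, hx']; ring
  have hY : W.addY x x y (W.slope x x y y) = y' := by
    rw [Affine.addY, Affine.negAddY, hX, hsl, Affine.negY, h₁, h₃, hy']; ring
  simp only [Point.some.injEq]
  exact ⟨hX, hY⟩

variable [DecidableEq F]

/-- **The universal point has order dividing 5.** -/
theorem five_nsmul_ptPQ (h2 : (2 : F) ≠ 0) (h3 : (3 : F) ≠ 0) (p q : F)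
    (hΔ : (curvePQ p q).Δ ≠ 0)
    (h : (curvePQ p q).toAffine.Nonsingular (xR p q) (yR p q)) :
    5 • (Point.some _ _ h : (curvePQ p q).toAffine.Point) = 0 := by
  have hd : dh p q ≠ 0 := by
    intro e; apply hΔ; rw [curvePQ_Δ, e, mul_zero]
  have hp : p ≠ 0 := by
    rintro rfl; apply hd; simp [dh]
  have hq : q ≠ 0 := by
    rintro rfl; apply hd; simp [dh]
  have h108 : (108 : F) ≠ 0 := by
    have : (108 : F) = 2 ^ 2 * 3 ^ 3 := by norm_num
    rw [this]; exact mul_ne_zero (pow_ne_zero _ h2) (pow_ne_zero _ h3)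
  have hy : yR p q ≠ 0 := by
    unfold yR; exact mul_ne_zero (mul_ne_zero h108 (pow_ne_zero _ hp)) hq
  have hy2 : y2R p q ≠ 0 := by
    unfold y2R; exact mul_ne_zero (mul_ne_zero h108 hp) (pow_ne_zero _ hq)
  have h' : (curvePQ p q).toAffine.Nonsingular (x2R p q) (y2R p q) :=
    (Affine.equation_iff_nonsingular_of_Δ_ne_zero hΔ).mp (equation_pt2PQ p q)
  have hneg : (curvePQ p q).toAffine.Nonsingular (xR p q) (-yR p q) := by
    have := (Affine.nonsingular_neg (W' := (curvePQ p q).toAffine) (x := xR p q) (y := yR p q)).mpr h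
    simpa [Affine.negY] using this
  have e1 : Point.some _ _ h + Point.some _ _ h = Point.some _ _ h' := by
    refine add_self_eq_some rfl rfl rfl h2 h h' hy (l := 3 * (p + q)) ?_ ?_ ?_
    · simp only [curvePQ, xR, yR, c4h]; ring
    · simp only [xR, x2R]; ring
    · simp only [xR, x2R, yR, y2R]; ring
  have e2 : Point.some _ _ h' + Point.some _ _ h' = Point.some _ _ hneg := by
    refine add_self_eq_some rfl rfl rfl h2 h' hneg hy2 (l := 3 * (p - q)) ?_ ?_ ?_
    · simp only [curvePQ, x2R, y2R, c4h]; ring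
    · simp only [xR, x2R]; ring
    · simp only [xR, x2R, yR, y2R]; ring
  have e3 : (Point.some _ _ hneg : (curvePQ p q).toAffine.Point) = -Point.some _ _ h := by
    rw [Point.neg_some]
    simp [Affine.negY]
  have : (5 : ℕ) • (Point.some _ _ h : (curvePQ p q).toAffine.Point)
      = ((Point.some _ _ h + Point.some _ _ h) + (Point.some _ _ h + Point.some _ _ h))
        + Point.some _ _ h := by
    simp only [succ_nsmul, zero_nsmul, zero_add]
    abel
  rw [this, e1, e2, e3, neg_add_cancel]

end field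

end Fermat.Agent.S52lib.Klein
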