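/-
S52 library, block KLEIN (helper3): Klein's icosahedral forms `f, H, T` as the pull-back of Tate's
normal form along the quintic map `(u : v) ↦ (np u v : nq u v)` (`X(5) → X₁(5)`):
`H = -c4h(np, nq)`, `T = -c6h(np, nq)`, `f⁵ = -dh(np, nq)`, hence `T² + H³ = 1728 f⁵`.
With the golden ratio `ph² = ph + 1`, `β = ph⁵ = 5ph + 3`, `β' = 8 - 5ph`:
`np - β nq = -(u + ph v)⁵`, `np - β' nq = -β' (v - ph u)⁵`; consequently `(np, nq)` takes every value
over a field containing `ph` in which every element is a fifth power (`exists_uv`).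
-/
import Fermat.Agent.S52lib.Klein.TNF5

set_option autoImplicit false

namespace Fermat.Agent.S52lib.Klein

section ring

variable {R : Type*} [CommRing R]

/-- the numerator of the `X(5) → X₁(5)` map. -/
def np (u v : R) : R := -u ^ 5 + 3 * u ^ 4 * v - 4 * u ^ 3 * v ^ 2 + 2 * u ^ 2 * v ^ 3 - u * v ^ 4

/-- the denominator of the `X(5) → X₁(5)` map. -/
def nq (u v : R) : R := u ^ 4 * v + 2 * u ^ 3 * v ^ 2 + 4 * u ^ 2 * v ^ 3 + 3 * u * v ^ 4 + v ^ 5

/-- Klein's form `f` (degree 12). -/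
def kf (u v : R) : R := u * v * (u ^ 10 + 11 * u ^ 5 * v ^ 5 - v ^ 10)

/-- Klein's form `H` (degree 20). -/
def kH (u v : R) : R :=
  -(u ^ 20 + v ^ 20) + 228 * (u ^ 15 * v ^ 5 - u ^ 5 * v ^ 15) - 494 * u ^ 10 * v ^ 10

/-- Klein's form `T` (degree 30). -/
def kT (u v : R) : R :=
  (u ^ 30 + v ^ 30) + 522 * (u ^ 25 * v ^ 5 - u ^ 5 * v ^ 25)
    - 10005 * (u ^ 20 * v ^ 10 + u ^ 10 * v ^ 20)

/-- `∂f/∂u`. -/
def kfu (u v : R) : R := 11 * u ^ 10 * v + 66 * u ^ 5 * v ^ 6 - v ^ 11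

/-- `∂f/∂v`. -/
def kfv (u v : R) : R := u ^ 11 + 66 * u ^ 6 * v ^ 5 - 11 * u * v ^ 10

theorem kH_eq (u v : R) : kH u v = -c4h (np u v) (nq u v) := by
  unfold kH c4h np nq; ring

theorem kT_eq (u v : R) : kT u v = -c6h (np u v) (nq u v) := by
  unfold kT c6h np nq; ring

theorem kf_pow_five (u v : R) : kf u v ^ 5 = -dh (np u v) (nq u v) := by
  unfold kf dh np nq; ring

/-- **Klein's syzygy.** -/
theorem klein (u v : R) : kT u v ^ 2 + kH u v ^ 3 = 1728 * kf u v ^ 5 := by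
  unfold kT kH kf; ring

/-- Euler's relation for `f`. -/
theorem euler_kf (u v : R) : u * kfu u v + v * kfv u v = 12 * kf u v := by
  unfold kfu kfv kf; ring

theorem map_np {S : Type*} [CommRing S] (g : R →+* S) (u v : R) : g (np u v) = np (g u) (g v) := by
  simp only [np, map_add, map_sub, map_mul, map_pow, map_ofNat, map_neg]

theorem map_nq {S : Type*} [CommRing S] (g : R →+* S) (u v : R) : g (nq u v) = nq (g u) (g v) := by
  simp only [nq, map_add, map_mul, map_pow, map_ofNat]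

theorem map_kf {S : Type*} [CommRing S] (g : R →+* S) (u v : R) : g (kf u v) = kf (g u) (g v) := by
  simp only [kf, map_add, map_sub, map_mul, map_pow, map_ofNat]

theorem map_kH {S : Type*} [CommRing S] (g : R →+* S) (u v : R) : g (kH u v) = kH (g u) (g v) := by
  simp only [kH, map_add, map_sub, map_mul, map_pow, map_ofNat, map_neg]

theorem map_kT {S : Type*} [CommRing S] (g : R →+* S) (u v : R) : g (kT u v) = kT (g u) (g v) := by
  simp only [kT, map_add, map_sub, map_mul, map_pow, map_ofNat]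

theorem map_kfu {S : Type*} [CommRing S] (g : R →+* S) (u v : R) :
    g (kfu u v) = kfu (g u) (g v) := by
  simp only [kfu, map_add, map_sub, map_mul, map_pow, map_ofNat]

theorem map_kfv {S : Type*} [CommRing S] (g : R →+* S) (u v : R) :
    g (kfv u v) = kfv (g u) (g v) := by
  simp only [kfv, map_add, map_sub, map_mul, map_pow, map_ofNat]

/-- the tangent slope at the universal point `Q` (helper3's `ℓ₁`). -/
def l1 (u v : R) : R := 3 * (np u v + nq u v)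

/-- the tangent slope at `2Q` (helper3's `ℓ₂`). -/
def l2 (u v : R) : R := 3 * (np u v - nq u v)

/-- `x(Q)`, a form of degree 10 with integer coefficients. -/
def xQ (u v : R) : R := xR (np u v) (nq u v)

/-- `y(Q)`, a form of degree 15 with integer coefficients. -/
def yQ (u v : R) : R := yR (np u v) (nq u v)

/-- `x(2Q)`. -/
def x2Q (u v : R) : R := x2R (np u v) (nq u v)

/-- `y(2Q)`. -/
def y2Q (u v : R) : R := y2R (np u v) (nq u v)

theorem l1_eq (u v : R) : l1 u v = -3 * u ^ 5 + 12 * u ^ 4 * v - 6 * u ^ 3 * v ^ 2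
    + 18 * u ^ 2 * v ^ 3 + 6 * u * v ^ 4 + 3 * v ^ 5 := by
  unfold l1 np nq; ring

theorem l2_eq (u v : R) : l2 u v = -3 * u ^ 5 + 6 * u ^ 4 * v - 18 * u ^ 3 * v ^ 2
    - 6 * u ^ 2 * v ^ 3 - 12 * u * v ^ 4 - 3 * v ^ 5 := by
  unfold l2 np nq; ring

theorem xQ_eq (u v : R) : xQ u v = 3 * u ^ 10 - 36 * u ^ 9 * v + 72 * u ^ 8 * v ^ 2
    - 108 * u ^ 7 * v ^ 3 + 180 * u ^ 6 * v ^ 4 - 90 * u ^ 5 * v ^ 5 + 72 * u ^ 4 * v ^ 6
    + 36 * u ^ 3 * v ^ 7 + 36 * u ^ 2 * v ^ 8 + 3 * v ^ 10 := by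
  unfold xQ xR np nq; ring

theorem yQ_eq (u v : R) : yQ u v = 108 * u ^ 14 * v - 432 * u ^ 13 * v ^ 2 + 972 * u ^ 12 * v ^ 3
    - 1620 * u ^ 11 * v ^ 4 + 2700 * u ^ 10 * v ^ 5 - 3132 * u ^ 9 * v ^ 6 + 2268 * u ^ 8 * v ^ 7
    - 648 * u ^ 7 * v ^ 8 + 540 * u ^ 6 * v ^ 9 + 432 * u ^ 4 * v ^ 11 - 108 * u ^ 3 * v ^ 12
    + 108 * u ^ 2 * v ^ 13 := by
  unfold yQ yR np nq; ring

theorem three_mul_xQ (u v : R) : 3 * xQ u v = 2 * l1 u v ^ 2 - l2 u v ^ 2 := by
  unfold xQ xR l1 l2; ring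

theorem three_mul_x2Q (u v : R) : 3 * x2Q u v = 2 * l2 u v ^ 2 - l1 u v ^ 2 := by
  unfold x2Q x2R l1 l2; ring

theorem two_mul_yQ (u v : R) :
    2 * yQ u v = (l1 u v ^ 2 - l2 u v ^ 2) * (l1 u v + l2 u v) := by
  unfold yQ yR l1 l2; ring

theorem two_mul_y2Q (u v : R) :
    2 * y2Q u v = (l1 u v ^ 2 - l2 u v ^ 2) * (l1 u v - l2 u v) := by
  unfold y2Q y2R l1 l2; ring

theorem kH_eq_slopes (u v : R) : 27 * kH u v = 2 * yQ u v * l1 u v - 3 * xQ u v ^ 2 := by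
  rw [kH_eq]; unfold yQ yR xQ xR l1 c4h; ring

theorem kT_eq_slopes (u v : R) :
    54 * kT u v = yQ u v ^ 2 - xQ u v ^ 3 - 27 * kH u v * xQ u v := by
  rw [kT_eq, kH_eq]; unfold yQ yR xQ xR c4h c6h; ring

/-- `Q` lies on `y² = x³ + 27 H x + 54 T`. -/
theorem equation_Q (u v : R) :
    yQ u v ^ 2 = xQ u v ^ 3 + 27 * kH u v * xQ u v + 54 * kT u v := by
  linear_combination -kT_eq_slopes u v

/-- `np - β nq` is a fifth power (`β = 5ph + 3 = ph⁵`). -/
theorem np_sub_beta_nq {ph : R} (hph : ph ^ 2 = ph + 1) (u v : R) :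
    np u v - (5 * ph + 3) * nq u v = -(u + ph * v) ^ 5 := by
  unfold np nq
  linear_combination (10 * u ^ 3 * v ^ 2 + 10 * u ^ 2 * v ^ 3 * ph + 10 * u ^ 2 * v ^ 3
    + 5 * u * v ^ 4 * ph ^ 2 + 5 * u * v ^ 4 * ph + 10 * u * v ^ 4 + v ^ 5 * ph ^ 3
    + v ^ 5 * ph ^ 2 + 2 * v ^ 5 * ph + 3 * v ^ 5) * hph

/-- `np - β' nq` is a fifth power up to the unit `β' = 8 - 5ph`. -/
theorem np_sub_beta'_nq {ph : R} (hph : ph ^ 2 = ph + 1) (u v : R) :
    np u v - (8 - 5 * ph) * nq u v = -(8 - 5 * ph) * (v - ph * u) ^ 5 := by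
  unfold np nq
  linear_combination (5 * u ^ 5 * ph ^ 4 - 3 * u ^ 5 * ph ^ 3 + 2 * u ^ 5 * ph ^ 2 - u ^ 5 * ph
    + u ^ 5 - 25 * u ^ 4 * v * ph ^ 3 + 15 * u ^ 4 * v * ph ^ 2 - 10 * u ^ 4 * v * ph
    + 5 * u ^ 4 * v + 50 * u ^ 3 * v ^ 2 * ph ^ 2 - 30 * u ^ 3 * v ^ 2 * ph + 20 * u ^ 3 * v ^ 2
    - 50 * u ^ 2 * v ^ 3 * ph + 30 * u ^ 2 * v ^ 3 + 25 * u * v ^ 4) * hph

theorem beta_mul_beta' {ph : R} (hph : ph ^ 2 = ph + 1) : (5 * ph + 3) * (8 - 5 * ph) = -1 := by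
  linear_combination (-25 : R) * hph

end ring

section field

variable {F : Type*} [Field F]

/-- **Surjectivity of `(np, nq)`** over a field containing the golden ratio in which every element
is a fifth power (`5 ≠ 0`). -/
theorem exists_uv (h5 : (5 : F) ≠ 0) {ph : F} (hph : ph ^ 2 = ph + 1)
    (hroot : ∀ a : F, ∃ b : F, b ^ 5 = a) (p q : F) : ∃ u v : F, np u v = p ∧ nq u v = q := by
  obtain ⟨a, ha⟩ := hroot (-(p - (5 * ph + 3) * q))
  obtain ⟨b, hb⟩ := hroot ((5 * ph + 3) * (p - (8 - 5 * ph) * q))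
  -- solve `u + ph v = a`, `v - ph u = b`
  refine ⟨(a - ph * b) * (3 - ph) / 5, (b + ph * a) * (3 - ph) / 5, ?_⟩
  set u := (a - ph * b) * (3 - ph) / 5 with hu
  set v := (b + ph * a) * (3 - ph) / 5 with hv
  have e1 : u + ph * v = a := by
    rw [hu, hv]; field_simp
    linear_combination (a * (2 - ph)) * hph
  have e2 : v - ph * u = b := by
    rw [hu, hv]; field_simp
    linear_combination (b * (2 - ph)) * hph
  have hbb := beta_mul_beta' hph
  have i1 := np_sub_beta_nq hph u v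
  have i2 := np_sub_beta'_nq hph u v
  rw [e1, ha] at i1
  rw [e2, hb] at i2
  -- `i1 : np - β nq = p - β q`, `i2 : np - β' nq = p - β' q`
  have i2' : np u v - (8 - 5 * ph) * nq u v = p - (8 - 5 * ph) * q := by
    rw [i2]; linear_combination (-(p - (8 - 5 * ph) * q)) * hbb
  have i1' : np u v - (5 * ph + 3) * nq u v = p - (5 * ph + 3) * q := by
    rw [i1]; ring
  -- `β - β' = 5 (2ph - 1)` is invertible
  have hs : (2 * ph - 1) ^ 2 = 5 := by linear_combination (4 : F) * hph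
  have hs0 : (2 * ph - 1 : F) ≠ 0 := by
    intro e; rw [e] at hs; apply h5; rw [← hs]; ring
  have hq : nq u v = q := by
    have : (5 * (2 * ph - 1)) * (nq u v - q) = 0 := by linear_combination i2' - i1'
    rcases mul_eq_zero.mp this with h0 | h0
    · exact absurd h0 (mul_ne_zero h5 hs0)
    · exact sub_eq_zero.mp h0
  refine ⟨?_, hq⟩
  rw [hq] at i1'
  linear_combination i1'

end field

end Fermat.Agent.S52lib.Klein
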