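/-
S52 library, block KLEIN (helper3): the **normal form** of a short Weierstrass curve with a point of
order 5: it is `curvePQ p q` with the point `(xR p q, yR p q)`, where `3(p+q)`, `3(p-q)` are the tangent
slopes at `R` and `2R`.
-/
import Fermat.Agent.S52lib.Klein.TNF5

set_option autoImplicit false

namespace Fermat.Agent.S52lib.Klein

open WeierstrassCurve WeierstrassCurve.Affine

variable {F : Type*} [Field F] [DecidableEq F]

/-- the double of a point with `y ≠ 0` on a short Weierstrass curve, with its certificate. -/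
theorem exists_double {W : Affine F} (h₁ : W.a₁ = 0) (h₂ : W.a₂ = 0) (h₃ : W.a₃ = 0)
    (h2 : (2 : F) ≠ 0) {x y : F} (h : W.Nonsingular x y) (hy : y ≠ 0) :
    ∃ (l x' y' : F) (h' : W.Nonsingular x' y'), 2 * y * l = 3 * x ^ 2 + W.a₄ ∧
      x' = l ^ 2 - 2 * x ∧ y' = -y - l * (x' - x) ∧
      Point.some x y h + Point.some x y h = Point.some x' y' h' := by
  have hneg : W.negY x y = -y := by simp [Affine.negY, h₁, h₃]
  have h2y : 2 * y ≠ 0 := mul_ne_zero h2 hy
  have hyne : y ≠ W.negY x y := by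
    rw [hneg]
    intro e
    apply h2y
    linear_combination e
  have hsl : W.slope x x y y = (3 * x ^ 2 + W.a₄) / (2 * y) := by
    rw [Affine.slope_of_Y_ne rfl hyne, hneg, h₁, h₂]
    congr 1 <;> ring
  refine ⟨(3 * x ^ 2 + W.a₄) / (2 * y), W.addX x x (W.slope x x y y),
    W.addY x x y (W.slope x x y y), Affine.nonsingular_add h h (fun hxy => hyne hxy.2), ?_, ?_, ?_,
    Point.add_self_of_Y_ne hyne⟩
  · field_simp
  · rw [hsl, Affine.addX, h₁, h₂]; ring
  · rw [Affine.addY, Affine.negAddY, Affine.negY, h₁, h₃, hsl, Affine.addX, h₁, h₂]; ring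

/-- a point with `y = 0` on a short Weierstrass curve is killed by 2. -/
theorem add_self_eq_zero_of_y_eq_zero {W : Affine F} (h₁ : W.a₁ = 0) (h₃ : W.a₃ = 0) {x y : F}
    (h : W.Nonsingular x y) (hy : y = 0) : Point.some x y h + Point.some x y h = 0 := by
  apply Point.add_self_of_Y_eq
  simp [Affine.negY, h₁, h₃, hy]

/-- **Normal form of a point of order 5.** -/
theorem exists_pq_of_five_nsmul {W : Affine F} (h₁ : W.a₁ = 0) (h₂ : W.a₂ = 0) (h₃ : W.a₃ = 0)
    (h2 : (2 : F) ≠ 0) (h3 : (3 : F) ≠ 0) {x y : F} (h : W.Nonsingular x y)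
    (h5 : 5 • (Point.some x y h : W.Point) = 0) :
    ∃ p q : F, W.a₄ = -27 * c4h p q ∧ W.a₆ = -54 * c6h p q ∧ x = xR p q ∧ y = yR p q := by
  set P : W.Point := Point.some x y h with hP
  have hP0 : P ≠ 0 := Point.some_ne_zero _
  have h5' : (P + P) + (P + P) + P = 0 := by
    rw [← h5]; simp only [succ_nsmul, zero_nsmul, zero_add]; abel
  -- `y ≠ 0`
  have hy : y ≠ 0 := by
    intro hy0
    have e := add_self_eq_zero_of_y_eq_zero h₁ h₃ h hy0
    rw [← hP] at e
    rw [e, add_zero, zero_add] at h5'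
    exact hP0 h5'
  obtain ⟨l₁, x₂, y₂, h', hl₁, hx₂, hy₂, e1⟩ := exists_double h₁ h₂ h₃ h2 h hy
  rw [← hP] at e1
  -- `y₂ ≠ 0`
  have hy2 : y₂ ≠ 0 := by
    intro hy0
    have e := add_self_eq_zero_of_y_eq_zero h₁ h₃ h' hy0
    rw [e1, e, zero_add] at h5'
    exact hP0 h5'
  obtain ⟨l₂, x₄, y₄, h'', hl₂, hx₄, hy₄, e2⟩ := exists_double h₁ h₂ h₃ h2 h' hy2
  -- `4P = -P`
  have e3 : Point.some x₄ y₄ h'' = -P := by
    rw [e1, e2] at h5'
    exact eq_neg_of_add_eq_zero_left h5'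
  rw [hP, Point.neg_some] at e3
  simp only [Point.some.injEq] at e3
  obtain ⟨e4x, e4y⟩ := e3
  have hneg : W.negY x y = -y := by simp [Affine.negY, h₁, h₃]
  rw [hneg] at e4y
  -- the algebra
  have h6 : (6 : F) ≠ 0 := by
    have : (6 : F) = 2 * 3 := by norm_num
    rw [this]; exact mul_ne_zero h2 h3
  have heq := (Affine.equation_iff _ _).mp h.1
  rw [h₁, h₂, h₃] at heq
  -- linear consequences
  have hx3 : 3 * x = 2 * l₁ ^ 2 - l₂ ^ 2 := by
    have : x = l₂ ^ 2 - 2 * (l₁ ^ 2 - 2 * x) := by rw [← hx₂, ← e4x, hx₄]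
    linear_combination -this
  have hx23 : 3 * x₂ = 2 * l₂ ^ 2 - l₁ ^ 2 := by
    linear_combination 3 * hx₂ - 2 * hx3
  have e6 : -y = -y₂ - l₂ * (x - x₂) := by rw [← e4y, hy₄, e4x]
  have hyy : 2 * y₂ = (x - x₂) * (l₁ - l₂) := by
    linear_combination hy₂ + e6
  have hyy1 : 2 * y = (x - x₂) * (l₁ + l₂) := by
    linear_combination hy₂ - e6
  have hxv : x = (2 * l₁ ^ 2 - l₂ ^ 2) / 3 := by
    rw [eq_div_iff h3]; linear_combination hx3
  have hx2v : x₂ = (2 * l₂ ^ 2 - l₁ ^ 2) / 3 := by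
    rw [eq_div_iff h3]; linear_combination hx23
  have hd : x - x₂ = l₁ ^ 2 - l₂ ^ 2 := by
    apply mul_left_cancel₀ h3; linear_combination hx3 - hx23
  have hyv : y = (l₁ ^ 2 - l₂ ^ 2) * (l₁ + l₂) / 2 := by
    rw [eq_div_iff h2]
    linear_combination hyy1 + (l₁ + l₂) * hd
  have ha₄ : W.a₄ = 2 * y * l₁ - 3 * x ^ 2 := by linear_combination -hl₁
  have ha₆ : W.a₆ = y ^ 2 - x ^ 3 - W.a₄ * x := by linear_combination -heq
  refine ⟨(l₁ + l₂) / 6, (l₁ - l₂) / 6, ?_, ?_, ?_, ?_⟩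
  · rw [ha₄, hyv, hxv]; unfold c4h; field_simp; ring
  · rw [ha₆, ha₄, hyv, hxv]; unfold c6h; field_simp; ring
  · rw [hxv]; unfold xR; field_simp; ring
  · rw [hyv]; unfold yR; field_simp; ring

end Fermat.Agent.S52lib.Klein
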