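/-
S52 library, block KLEIN (helper3): the universal point `Q(u,v) = (xQ u v, yQ u v)` of order 5 on any
short Weierstrass curve `y² = x³ + 27 H(u,v) x + 54 T(u,v)` with nonzero discriminant, and the converse
(`exists_klein_of_five_nsmul`): over a field containing the golden ratio in which every element is a
fifth power, every pair (short Weierstrass curve, point killed by 5) is of this form.
-/
import Fermat.Agent.S52lib.Klein.NF
import Fermat.Agent.S52lib.Klein.Forms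

set_option autoImplicit false

namespace Fermat.Agent.S52lib.Klein

open WeierstrassCurve WeierstrassCurve.Affine

variable {F : Type*} [Field F]

/-- a short Weierstrass curve with `a₄ = 27 H(u,v)`, `a₆ = 54 T(u,v)` is `curvePQ (np u v) (nq u v)`. -/
theorem eq_curvePQ {W : WeierstrassCurve F} (h₁ : W.a₁ = 0) (h₂ : W.a₂ = 0) (h₃ : W.a₃ = 0)
    {u v : F} (h₄ : W.a₄ = 27 * kH u v) (h₆ : W.a₆ = 54 * kT u v) :
    W = curvePQ (np u v) (nq u v) := by
  ext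
  · exact h₁
  · exact h₂
  · exact h₃
  · rw [h₄, kH_eq]; simp [curvePQ]
  · rw [h₆, kT_eq]; simp [curvePQ]

/-- the universal point lies on the curve. -/
theorem equation_ptQ {W : WeierstrassCurve F} (h₁ : W.a₁ = 0) (h₂ : W.a₂ = 0) (h₃ : W.a₃ = 0)
    {u v : F} (h₄ : W.a₄ = 27 * kH u v) (h₆ : W.a₆ = 54 * kT u v) :
    W.toAffine.Equation (xQ u v) (yQ u v) := by
  rw [eq_curvePQ h₁ h₂ h₃ h₄ h₆]
  exact equation_ptPQ _ _

/-- the universal point is nonsingular when `Δ ≠ 0`. -/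
theorem nonsingular_ptQ {W : WeierstrassCurve F} (h₁ : W.a₁ = 0) (h₂ : W.a₂ = 0) (h₃ : W.a₃ = 0)
    {u v : F} (h₄ : W.a₄ = 27 * kH u v) (h₆ : W.a₆ = 54 * kT u v) (hΔ : W.Δ ≠ 0) :
    W.toAffine.Nonsingular (xQ u v) (yQ u v) :=
  (Affine.equation_iff_nonsingular_of_Δ_ne_zero hΔ).mp (equation_ptQ h₁ h₂ h₃ h₄ h₆)

variable [DecidableEq F]

/-- **The universal point `Q(u,v)` is killed by 5.** -/
theorem five_nsmul_ptQ (h2 : (2 : F) ≠ 0) (h3 : (3 : F) ≠ 0) {W : WeierstrassCurve F}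
    (h₁ : W.a₁ = 0) (h₂ : W.a₂ = 0) (h₃ : W.a₃ = 0) {u v : F} (h₄ : W.a₄ = 27 * kH u v)
    (h₆ : W.a₆ = 54 * kT u v) (hΔ : W.Δ ≠ 0)
    (h : W.toAffine.Nonsingular (xQ u v) (yQ u v)) :
    5 • (Point.some _ _ h : W.toAffine.Point) = 0 := by
  have e := eq_curvePQ h₁ h₂ h₃ h₄ h₆
  subst e
  exact five_nsmul_ptPQ h2 h3 _ _ hΔ h

/-- **Every point killed by 5 on a short Weierstrass curve is a universal point `Q(u,v)`**, over a
field containing the golden ratio in which every element is a fifth power. -/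
theorem exists_klein_of_five_nsmul (h2 : (2 : F) ≠ 0) (h3 : (3 : F) ≠ 0) (h5 : (5 : F) ≠ 0)
    {ph : F} (hph : ph ^ 2 = ph + 1) (hroot : ∀ a : F, ∃ b : F, b ^ 5 = a)
    {W : Affine F} (h₁ : W.a₁ = 0) (h₂ : W.a₂ = 0) (h₃ : W.a₃ = 0) {x y : F}
    (h : W.Nonsingular x y) (h5P : 5 • (Point.some x y h : W.Point) = 0) :
    ∃ u v : F, W.a₄ = 27 * kH u v ∧ W.a₆ = 54 * kT u v ∧ x = xQ u v ∧ y = yQ u v := by
  obtain ⟨p, q, e₄, e₆, ex, ey⟩ := exists_pq_of_five_nsmul h₁ h₂ h₃ h2 h3 h h5P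
  obtain ⟨u, v, hp, hq⟩ := exists_uv h5 hph hroot p q
  refine ⟨u, v, ?_, ?_, ?_, ?_⟩
  · rw [e₄, kH_eq, hp, hq]; ring
  · rw [e₆, kT_eq, hp, hq]; ring
  · rw [ex, xQ, hp, hq]
  · rw [ey, yQ, hp, hq]

end Fermat.Agent.S52lib.Klein
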