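/-
S52 library, block KLEIN, file `Inst` (helper5): the two instances of the hypotheses
"golden ratio + fifth roots" of `Klein.exists_klein_of_five_nsmul` (helper3):
algebraically closed fields of characteristic `≠ 2, 3, 5` (in particular `ℚ̄`), and the prime fields
`𝔽_r` with `r ≡ 4 mod 5`; and the resulting statements for points `R ≠ 0`, `5 • R = 0`.
-/
import Fermat.Agent.S52lib.Klein.Univ

set_option autoImplicit false

namespace Fermat.Agent.S52lib.Klein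

open WeierstrassCurve WeierstrassCurve.Affine

/-- a golden ratio from a square root of `5`. -/
theorem exists_golden_of_sqrt_five {K : Type*} [Field K] (h2 : (2 : K) ≠ 0) (w : K)
    (hw : w * w = 5) : ∃ g : K, g ^ 2 = g + 1 := by
  refine ⟨(1 + w) / 2, ?_⟩
  field_simp
  linear_combination hw

/-- a golden ratio in an algebraically closed field. -/
theorem exists_golden_of_isAlgClosed (K : Type*) [Field K] [IsAlgClosed K] (h2 : (2 : K) ≠ 0) :
    ∃ g : K, g ^ 2 = g + 1 := by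
  obtain ⟨w, hw⟩ := IsAlgClosed.exists_pow_nat_eq (5 : K) (n := 2) (by norm_num)
  exact exists_golden_of_sqrt_five h2 w (by rw [← hw]; ring)

/-- fifth roots in an algebraically closed field. -/
theorem exists_fifth_root_of_isAlgClosed (K : Type*) [Field K] [IsAlgClosed K] (x : K) :
    ∃ y : K, y ^ 5 = x :=
  IsAlgClosed.exists_pow_nat_eq x (n := 5) (by norm_num)

theorem four_eq_sq_zmod_five : ((4 : ℕ) : ZMod 5) = 2 * 2 := by decide

section ZModr

variable (r : ℕ) [hr : Fact r.Prime]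

/-- fifth roots in `𝔽_r` for `r ≡ 4 mod 5`: `y = x ^ (3 j + 2)`, `r = 5 j + 4`. -/
theorem exists_fifth_root_zmod (hr5 : r % 5 = 4) (x : ZMod r) : ∃ y : ZMod r, y ^ 5 = x := by
  by_cases hx : x = 0
  · exact ⟨0, by rw [hx]; ring⟩
  · refine ⟨x ^ (3 * (r / 5) + 2), ?_⟩
    have h1 : x ^ (r - 1) = 1 := ZMod.pow_card_sub_one_eq_one hx
    have hexp : (3 * (r / 5) + 2) * 5 = 1 + (r - 1) * 3 := by omega
    rw [← pow_mul, hexp, pow_add, pow_one, pow_mul, h1, one_pow, mul_one]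

theorem two_ne_zero_zmod (hr5 : r % 5 = 4) : (2 : ZMod r) ≠ 0 := by
  intro h
  have h' : ((2 : ℕ) : ZMod r) = 0 := by exact_mod_cast h
  rw [ZMod.natCast_eq_zero_iff] at h'
  have := (Nat.prime_dvd_prime_iff_eq hr.out Nat.prime_two).mp h'
  rw [this] at hr5; norm_num at hr5

theorem three_ne_zero_zmod (hr5 : r % 5 = 4) : (3 : ZMod r) ≠ 0 := by
  intro h
  have h' : ((3 : ℕ) : ZMod r) = 0 := by exact_mod_cast h
  rw [ZMod.natCast_eq_zero_iff] at h'
  have := (Nat.prime_dvd_prime_iff_eq hr.out Nat.prime_three).mp h'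
  rw [this] at hr5; norm_num at hr5

theorem five_ne_zero_zmod (hr5 : r % 5 = 4) : (5 : ZMod r) ≠ 0 := by
  intro h
  have h' : ((5 : ℕ) : ZMod r) = 0 := by exact_mod_cast h
  rw [ZMod.natCast_eq_zero_iff] at h'
  have := (Nat.prime_dvd_prime_iff_eq hr.out (by norm_num : Nat.Prime 5)).mp h'
  rw [this] at hr5; norm_num at hr5

/-- a golden ratio in `𝔽_r` for `r ≡ 4 mod 5` (quadratic reciprocity: `5` is a square mod `r`). -/
theorem exists_golden_zmod (hr5 : r % 5 = 4) : ∃ g : ZMod r, g ^ 2 = g + 1 := by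
  have : Fact (Nat.Prime 5) := ⟨by norm_num⟩
  have hr2 : r ≠ 2 := by rintro rfl; norm_num at hr5
  have hsq : IsSquare ((5 : ℕ) : ZMod r) := by
    rw [← ZMod.exists_sq_eq_prime_iff_of_mod_four_eq_one (p := 5) (q := r) (by norm_num) hr2]
    refine ⟨2, ?_⟩
    have : ((r : ℕ) : ZMod 5) = ((4 : ℕ) : ZMod 5) :=
      (ZMod.natCast_eq_natCast_iff _ _ _).mpr (by show r % 5 = 4 % 5; rw [hr5])
    rw [this]; exact four_eq_sq_zmod_five
  obtain ⟨w, hw⟩ := hsq
  exact exists_golden_of_sqrt_five (two_ne_zero_zmod r hr5) w (by rw [← hw]; norm_num)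

end ZModr

section Points

variable {F : Type*} [Field F] [DecidableEq F]

/-- point form of `exists_klein_of_five_nsmul`. -/
theorem exists_klein_of_point (h2 : (2 : F) ≠ 0) (h3 : (3 : F) ≠ 0) (h5 : (5 : F) ≠ 0)
    {ph : F} (hph : ph ^ 2 = ph + 1) (hroot : ∀ a : F, ∃ b : F, b ^ 5 = a)
    {W : Affine F} (h₁ : W.a₁ = 0) (h₂ : W.a₂ = 0) (h₃ : W.a₃ = 0)
    (R : W.Point) (hR : R ≠ 0) (h5R : 5 • R = 0) :
    ∃ (u v : F) (h : W.Nonsingular (xQ u v) (yQ u v)), W.a₄ = 27 * kH u v ∧ W.a₆ = 54 * kT u v ∧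
      R = Point.some (xQ u v) (yQ u v) h := by
  rcases R with _ | ⟨x, y, h⟩
  · exact absurd rfl hR
  · obtain ⟨u, v, e₄, e₆, ex, ey⟩ :=
      exists_klein_of_five_nsmul h2 h3 h5 hph hroot h₁ h₂ h₃ h h5R
    subst ex ey
    exact ⟨u, v, h, e₄, e₆, rfl⟩

/-- **Instance (a)**: algebraically closed fields of characteristic `≠ 2, 3, 5`. -/
theorem exists_klein_of_point_of_isAlgClosed [IsAlgClosed F] (h2 : (2 : F) ≠ 0)
    (h3 : (3 : F) ≠ 0) (h5 : (5 : F) ≠ 0)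
    {W : Affine F} (h₁ : W.a₁ = 0) (h₂ : W.a₂ = 0) (h₃ : W.a₃ = 0)
    (R : W.Point) (hR : R ≠ 0) (h5R : 5 • R = 0) :
    ∃ (u v : F) (h : W.Nonsingular (xQ u v) (yQ u v)), W.a₄ = 27 * kH u v ∧ W.a₆ = 54 * kT u v ∧
      R = Point.some (xQ u v) (yQ u v) h := by
  obtain ⟨g, hg⟩ := exists_golden_of_isAlgClosed F h2
  exact exists_klein_of_point h2 h3 h5 hg (exists_fifth_root_of_isAlgClosed F) h₁ h₂ h₃ R hR h5R

/-- **Instance (a')**: algebraically closed fields of characteristic zero (e.g. `ℚ̄`). -/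
theorem exists_klein_of_point_of_charZero [IsAlgClosed F] [CharZero F]
    {W : Affine F} (h₁ : W.a₁ = 0) (h₂ : W.a₂ = 0) (h₃ : W.a₃ = 0)
    (R : W.Point) (hR : R ≠ 0) (h5R : 5 • R = 0) :
    ∃ (u v : F) (h : W.Nonsingular (xQ u v) (yQ u v)), W.a₄ = 27 * kH u v ∧ W.a₆ = 54 * kT u v ∧
      R = Point.some (xQ u v) (yQ u v) h :=
  exists_klein_of_point_of_isAlgClosed two_ne_zero three_ne_zero (by norm_num) h₁ h₂ h₃ R hR h5R

/-- coordinate form of instance (a). -/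
theorem exists_klein_of_five_nsmul_of_isAlgClosed [IsAlgClosed F] (h2 : (2 : F) ≠ 0)
    (h3 : (3 : F) ≠ 0) (h5 : (5 : F) ≠ 0)
    {W : Affine F} (h₁ : W.a₁ = 0) (h₂ : W.a₂ = 0) (h₃ : W.a₃ = 0) {x y : F}
    (h : W.Nonsingular x y) (h5P : 5 • (Point.some x y h : W.Point) = 0) :
    ∃ u v : F, W.a₄ = 27 * kH u v ∧ W.a₆ = 54 * kT u v ∧ x = xQ u v ∧ y = yQ u v := by
  obtain ⟨g, hg⟩ := exists_golden_of_isAlgClosed F h2
  exact exists_klein_of_five_nsmul h2 h3 h5 hg (exists_fifth_root_of_isAlgClosed F) h₁ h₂ h₃ h h5P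

end Points

section PointsZMod

variable (r : ℕ) [hr : Fact r.Prime]

/-- **Instance (b)**: the prime field `𝔽_r`, `r ≡ 4 mod 5`. -/
theorem exists_klein_of_point_zmod (hr5 : r % 5 = 4)
    {W : Affine (ZMod r)} (h₁ : W.a₁ = 0) (h₂ : W.a₂ = 0) (h₃ : W.a₃ = 0)
    (R : W.Point) (hR : R ≠ 0) (h5R : 5 • R = 0) :
    ∃ (u v : ZMod r) (h : W.Nonsingular (xQ u v) (yQ u v)),
      W.a₄ = 27 * kH u v ∧ W.a₆ = 54 * kT u v ∧ R = Point.some (xQ u v) (yQ u v) h := by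
  obtain ⟨g, hg⟩ := exists_golden_zmod r hr5
  exact exists_klein_of_point (two_ne_zero_zmod r hr5) (three_ne_zero_zmod r hr5)
    (five_ne_zero_zmod r hr5) hg (exists_fifth_root_zmod r hr5) h₁ h₂ h₃ R hR h5R

/-- coordinate form of instance (b). -/
theorem exists_klein_of_five_nsmul_zmod (hr5 : r % 5 = 4)
    {W : Affine (ZMod r)} (h₁ : W.a₁ = 0) (h₂ : W.a₂ = 0) (h₃ : W.a₃ = 0) {x y : ZMod r}
    (h : W.Nonsingular x y) (h5P : 5 • (Point.some x y h : W.Point) = 0) :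
    ∃ u v : ZMod r, W.a₄ = 27 * kH u v ∧ W.a₆ = 54 * kT u v ∧ x = xQ u v ∧ y = yQ u v := by
  obtain ⟨g, hg⟩ := exists_golden_zmod r hr5
  exact exists_klein_of_five_nsmul (two_ne_zero_zmod r hr5) (three_ne_zero_zmod r hr5)
    (five_ne_zero_zmod r hr5) hg (exists_fifth_root_zmod r hr5) h₁ h₂ h₃ h h5P

end PointsZMod

end Fermat.Agent.S52lib.Klein
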