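/-
S52lib / Klein / Maps (helper7): ring-hom compatibility and homogeneity of ALL forms of
`Klein/TNF5` and `Klein/Forms` (the ones not already in those files), so that the same definitions
serve over `Qb`, `Qb[X]`, `RatFunc Qb`, residue fields and `ZMod r`.

* `map_F : φ (F u v) = F (φ u) (φ v)` for `F ∈ {dh, xR, yR, x2R, y2R, l1, l2, xQ, yQ, x2Q, y2Q}`
  (`map_c4h`, `map_c6h` are in `TNF5`; `map_np/nq/kf/kH/kT/kfu/kfv` are in `Forms`);
* `eval_F : (F p q).eval c = F (p.eval c) (q.eval c)` for polynomial arguments, all forms;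
* `F_smul : F (l * u) (l * v) = l ^ d * F u v` (degrees: `np nq l1 l2` 5, `xQ x2Q` 10,
  `kfu kfv` 11, `kf` 12, `yQ y2Q` 15, `kH` 20, `kT` 30; `c4h` 4, `c6h` 6, `dh` 12, `xR x2R` 2,
  `yR y2R` 3).
-/
import Mathlib
import Fermat.Agent.S52lib.Klein.Forms

set_option autoImplicit false
set_option linter.unusedSimpArgs false

namespace Fermat.Agent.S52lib.Klein

variable {R : Type*} [CommRing R] {S : Type*} [CommRing S]

/-! ### ring homomorphisms -/

theorem map_dh (g : R →+* S) (p q : R) : g (dh p q) = dh (g p) (g q) := by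
  simp only [dh, map_add, map_sub, map_mul, map_pow, map_neg, map_ofNat]

theorem map_xR (g : R →+* S) (p q : R) : g (xR p q) = xR (g p) (g q) := by
  simp only [xR, map_add, map_sub, map_mul, map_pow, map_neg, map_ofNat]

theorem map_yR (g : R →+* S) (p q : R) : g (yR p q) = yR (g p) (g q) := by
  simp only [yR, map_add, map_sub, map_mul, map_pow, map_neg, map_ofNat]

theorem map_x2R (g : R →+* S) (p q : R) : g (x2R p q) = x2R (g p) (g q) := by
  simp only [x2R, map_add, map_sub, map_mul, map_pow, map_neg, map_ofNat]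

theorem map_y2R (g : R →+* S) (p q : R) : g (y2R p q) = y2R (g p) (g q) := by
  simp only [y2R, map_add, map_sub, map_mul, map_pow, map_neg, map_ofNat]

theorem map_l1 (g : R →+* S) (u v : R) : g (l1 u v) = l1 (g u) (g v) := by
  simp only [l1, map_add, map_mul, map_ofNat, map_np, map_nq]

theorem map_l2 (g : R →+* S) (u v : R) : g (l2 u v) = l2 (g u) (g v) := by
  simp only [l2, map_sub, map_mul, map_ofNat, map_np, map_nq]

theorem map_xQ (g : R →+* S) (u v : R) : g (xQ u v) = xQ (g u) (g v) := by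
  simp only [xQ, map_xR, map_np, map_nq]

theorem map_yQ (g : R →+* S) (u v : R) : g (yQ u v) = yQ (g u) (g v) := by
  simp only [yQ, map_yR, map_np, map_nq]

theorem map_x2Q (g : R →+* S) (u v : R) : g (x2Q u v) = x2Q (g u) (g v) := by
  simp only [x2Q, map_x2R, map_np, map_nq]

theorem map_y2Q (g : R →+* S) (u v : R) : g (y2Q u v) = y2Q (g u) (g v) := by
  simp only [y2Q, map_y2R, map_np, map_nq]

/-! ### evaluation of polynomial arguments -/

section Eval

open Polynomial

variable (c : R) (p q : R[X])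

theorem eval_np : (np p q).eval c = np (p.eval c) (q.eval c) := map_np (evalRingHom c) p q
theorem eval_nq : (nq p q).eval c = nq (p.eval c) (q.eval c) := map_nq (evalRingHom c) p q
theorem eval_kf : (kf p q).eval c = kf (p.eval c) (q.eval c) := map_kf (evalRingHom c) p q
theorem eval_kH : (kH p q).eval c = kH (p.eval c) (q.eval c) := map_kH (evalRingHom c) p q
theorem eval_kT : (kT p q).eval c = kT (p.eval c) (q.eval c) := map_kT (evalRingHom c) p q
theorem eval_kfu : (kfu p q).eval c = kfu (p.eval c) (q.eval c) := map_kfu (evalRingHom c) p q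
theorem eval_kfv : (kfv p q).eval c = kfv (p.eval c) (q.eval c) := map_kfv (evalRingHom c) p q
theorem eval_l1 : (l1 p q).eval c = l1 (p.eval c) (q.eval c) := map_l1 (evalRingHom c) p q
theorem eval_l2 : (l2 p q).eval c = l2 (p.eval c) (q.eval c) := map_l2 (evalRingHom c) p q
theorem eval_xQ : (xQ p q).eval c = xQ (p.eval c) (q.eval c) := map_xQ (evalRingHom c) p q
theorem eval_yQ : (yQ p q).eval c = yQ (p.eval c) (q.eval c) := map_yQ (evalRingHom c) p q
theorem eval_x2Q : (x2Q p q).eval c = x2Q (p.eval c) (q.eval c) := map_x2Q (evalRingHom c) p q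
theorem eval_y2Q : (y2Q p q).eval c = y2Q (p.eval c) (q.eval c) := map_y2Q (evalRingHom c) p q

end Eval

/-! ### homogeneity -/

theorem c4h_smul (l p q : R) : c4h (l * p) (l * q) = l ^ 4 * c4h p q := by
  unfold c4h; ring

theorem c6h_smul (l p q : R) : c6h (l * p) (l * q) = l ^ 6 * c6h p q := by
  unfold c6h; ring

theorem dh_smul (l p q : R) : dh (l * p) (l * q) = l ^ 12 * dh p q := by
  unfold dh; ring

theorem xR_smul (l p q : R) : xR (l * p) (l * q) = l ^ 2 * xR p q := by
  unfold xR; ring

theorem yR_smul (l p q : R) : yR (l * p) (l * q) = l ^ 3 * yR p q := by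
  unfold yR; ring

theorem x2R_smul (l p q : R) : x2R (l * p) (l * q) = l ^ 2 * x2R p q := by
  unfold x2R; ring

theorem y2R_smul (l p q : R) : y2R (l * p) (l * q) = l ^ 3 * y2R p q := by
  unfold y2R; ring

theorem np_smul (l u v : R) : np (l * u) (l * v) = l ^ 5 * np u v := by
  unfold np; ring

theorem nq_smul (l u v : R) : nq (l * u) (l * v) = l ^ 5 * nq u v := by
  unfold nq; ring

theorem kf_smul (l u v : R) : kf (l * u) (l * v) = l ^ 12 * kf u v := by
  unfold kf; ring

theorem kH_smul (l u v : R) : kH (l * u) (l * v) = l ^ 20 * kH u v := by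
  unfold kH; ring

theorem kT_smul (l u v : R) : kT (l * u) (l * v) = l ^ 30 * kT u v := by
  unfold kT; ring

theorem kfu_smul (l u v : R) : kfu (l * u) (l * v) = l ^ 11 * kfu u v := by
  unfold kfu; ring

theorem kfv_smul (l u v : R) : kfv (l * u) (l * v) = l ^ 11 * kfv u v := by
  unfold kfv; ring

theorem l1_smul (l u v : R) : l1 (l * u) (l * v) = l ^ 5 * l1 u v := by
  unfold l1; rw [np_smul, nq_smul]; ring

theorem l2_smul (l u v : R) : l2 (l * u) (l * v) = l ^ 5 * l2 u v := by
  unfold l2; rw [np_smul, nq_smul]; ring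

theorem xQ_smul (l u v : R) : xQ (l * u) (l * v) = l ^ 10 * xQ u v := by
  unfold xQ; rw [np_smul, nq_smul, xR_smul]; ring

theorem yQ_smul (l u v : R) : yQ (l * u) (l * v) = l ^ 15 * yQ u v := by
  unfold yQ; rw [np_smul, nq_smul, yR_smul]; ring

theorem x2Q_smul (l u v : R) : x2Q (l * u) (l * v) = l ^ 10 * x2Q u v := by
  unfold x2Q; rw [np_smul, nq_smul, x2R_smul]; ring

theorem y2Q_smul (l u v : R) : y2Q (l * u) (l * v) = l ^ 15 * y2Q u v := by
  unfold y2Q; rw [np_smul, nq_smul, y2R_smul]; ring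

end Fermat.Agent.S52lib.Klein
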